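import Mathlib
import Fermat.Prelude.Def_FLTPrelim_FreyPackage
import Fermat.Prelude.Def_FLTPrelim_GaloisRep
import Fermat.Prelude.Def_FLTPrelim_Modularity
import Fermat.Prelude.Def_FLTPrelim_ModularRep
import Fermat.Prelude.Def_FLTPrelim_Ramification
import Fermat.Prelude.Def_FLTPrelim_CofixedLine

set_option autoImplicit false
open WeierstrassCurve WeierstrassCurve.Affine WeierstrassCurve.Affine.Point
open CuspForm ModularFormClass UpperHalfPlane

namespace Fermat.Agent.S01

theorem no_frey_of_parts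
    (h4 : ∀ P : FreyPackage, P.freyCurve.IsModular)
    (h9 : ∀ P : FreyPackage,
      GaloisRepIsIrreducible (K := AlgebraicClosure ℚ) ℚ P.freyCurve P.p)
    (h45 : ∀ P : FreyPackage, P.freyCurve.IsModular →
      GaloisRepIsIrreducible (K := AlgebraicClosure ℚ) ℚ P.freyCurve P.p →
      ∃ f : CuspForm (CongruenceSubgroup.Gamma0 2) 2, f ≠ 0)
    (h7 : ∀ f : CuspForm (CongruenceSubgroup.Gamma0 2) 2, f = 0)
    (P : FreyPackage) : False := by
  obtain ⟨f, hf⟩ := h45 P (h4 P) (h9 P)
  exact hf (h7 f)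

end Fermat.Agent.S01
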